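import Fermat.Agent.S24.FF.Basic

/-!
# S24 / Local : weak approximation for places of a field `F/K`
(Artin-Whaples induction, only uses the `ord` lemmas of `FF/Basic`).
-/

set_option autoImplicit false

namespace Fermat.Agent.S24.Local

open AlgebraicCurve Fermat.Agent.S24.FF

variable {K F : Type*} [Field K] [Field F] [Algebra K F]

theorem exists_ord_neg (v : Place K F) : ∃ a : F, v.ord a < 0 := by
  obtain ⟨π, hπ⟩ := exists_ord_eq_one v
  exact ⟨π⁻¹, by rw [v.ord_inv, hπ]; norm_num⟩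

/-- Distinct places have incomparable valuation rings. -/
theorem exists_ord_neg_of_ne {v w : Place K F} (h : v ≠ w) :
    ∃ a : F, v.ord a < 0 ∧ 0 ≤ w.ord a := by
  by_contra hcon
  push Not at hcon
  have hwv : ∀ a : F, 0 ≤ w.ord a → 0 ≤ v.ord a := by
    intro a ha
    by_contra hlt
    exact absurd ha (not_le.mpr (hcon a (not_le.mp hlt)))
  apply h
  apply place_ext_of_ord_nonneg
  intro f hf
  refine ⟨fun hv => ?_, hwv f⟩
  by_contra hw
  have hw' : w.ord f < 0 := not_le.mp hw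
  obtain ⟨b, hb⟩ := exists_ord_neg v
  have hb0 : b ≠ 0 := ne_zero_of_ord_ne_zero v hb.ne
  -- `b * f⁻¹ ^ k`
  set k : ℕ := (w.ord b).natAbs with hk
  have hfi : f⁻¹ ≠ 0 := inv_ne_zero hf
  have h1 : w.ord (b * f⁻¹ ^ k) = w.ord b + k * (- w.ord f) := by
    rw [w.ord_mul hb0 (pow_ne_zero _ hfi), ord_pow, w.ord_inv]
  have h2 : v.ord (b * f⁻¹ ^ k) = v.ord b + k * (- v.ord f) := by
    rw [v.ord_mul hb0 (pow_ne_zero _ hfi), ord_pow, v.ord_inv]
  have h3 : 0 ≤ w.ord (b * f⁻¹ ^ k) := by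
    rw [h1]
    have : (k : ℤ) = |w.ord b| := by rw [hk]; exact Int.natCast_natAbs _
    have h4 : (k : ℤ) ≤ k * (- w.ord f) := by
      have : (1 : ℤ) ≤ - w.ord f := by omega
      nlinarith [Int.natCast_nonneg k]
    have h5 : - w.ord b ≤ |w.ord b| := neg_le_abs _
    omega
  have h4 := hwv _ h3
  rw [h2] at h4
  have : (0 : ℤ) ≤ k * v.ord f := mul_nonneg (Int.natCast_nonneg k) hv
  nlinarith

theorem exists_ord_neg_pos_of_ne {v w : Place K F} (h : v ≠ w) :
    ∃ a : F, v.ord a < 0 ∧ 0 < w.ord a := by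
  obtain ⟨b, hb1, hb2⟩ := exists_ord_neg_of_ne h
  obtain ⟨c, hc1, hc2⟩ := exists_ord_neg_of_ne h.symm
  have hb0 : b ≠ 0 := ne_zero_of_ord_ne_zero v hb1.ne
  have hc0 : c ≠ 0 := ne_zero_of_ord_ne_zero w hc1.ne
  refine ⟨b * c⁻¹, ?_, ?_⟩
  · rw [v.ord_mul hb0 (inv_ne_zero hc0), v.ord_inv]; omega
  · rw [w.ord_mul hb0 (inv_ne_zero hc0), w.ord_inv]; omega

theorem ord_one_add_of_neg (v : Place K F) {a : F} (ha : v.ord a < 0) :
    v.ord (1 + a) = v.ord a := by
  have ha0 : a ≠ 0 := ne_zero_of_ord_ne_zero v ha.ne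
  rw [add_comm]
  exact ord_add_eq_of_lt v ha0 one_ne_zero (by rw [v.ord_one]; exact ha)

theorem ord_one_add_of_pos (v : Place K F) {a : F} (ha : 0 < v.ord a) :
    v.ord (1 + a) = 0 := by
  have ha0 : a ≠ 0 := ne_zero_of_ord_ne_zero v ha.ne'
  rw [ord_add_eq_of_lt v one_ne_zero ha0 (by rw [v.ord_one]; exact ha), v.ord_one]

/-- Artin-Whaples. -/
theorem exists_ord_neg_and_pos (v : Place K F) (W : Finset (Place K F)) (hv : v ∉ W) :
    ∃ a : F, v.ord a < 0 ∧ ∀ w ∈ W, 0 < w.ord a := by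
  classical
  induction W using Finset.induction_on with
  | empty =>
    obtain ⟨a, ha⟩ := exists_ord_neg v
    exact ⟨a, ha, by simp⟩
  | insert w0 W hw0 ih =>
    have hvW : v ∉ W := fun h => hv (Finset.mem_insert_of_mem h)
    have hvw0 : v ≠ w0 := fun h => hv (h ▸ Finset.mem_insert_self _ _)
    obtain ⟨a, ha, haW⟩ := ih hvW
    obtain ⟨b, hb, hbw0⟩ := exists_ord_neg_pos_of_ne hvw0
    have ha0 : a ≠ 0 := ne_zero_of_ord_ne_zero v ha.ne
    have hb0 : b ≠ 0 := ne_zero_of_ord_ne_zero v hb.ne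
    -- a large exponent
    set r : ℕ := 1 + ∑ w ∈ W, (w.ord b).natAbs with hr
    have hrW : ∀ w ∈ W, 0 < (r : ℤ) * w.ord a + w.ord b := by
      intro w hw
      have h1 : (w.ord b).natAbs ≤ ∑ w ∈ W, (w.ord b).natAbs :=
        Finset.single_le_sum (f := fun w : Place K F => (w.ord b).natAbs)
          (fun _ _ => Nat.zero_le _) hw
      have h2 : ((w.ord b).natAbs : ℤ) < r := by
        have h2' : (w.ord b).natAbs < r := by rw [hr]; omega
        exact_mod_cast h2'
      have h3 : (r : ℤ) ≤ r * w.ord a := by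
        have := haW w hw
        nlinarith [Int.natCast_nonneg r]
      have h4 : - w.ord b ≤ ((w.ord b).natAbs : ℤ) := by
        rw [Int.natCast_natAbs]; exact neg_le_abs _
      omega
    have hr1 : (1 : ℤ) ≤ r := by
      have hr1' : 1 ≤ r := by rw [hr]; omega
      exact_mod_cast hr1'
    have har0 : a ^ r ≠ 0 := pow_ne_zero _ ha0
    rcases lt_trichotomy (w0.ord a) 0 with hlt | heq | hgt
    · -- `a ^ r / (1 + a ^ r) * b`
      have hvr : v.ord (a ^ r) < 0 := by rw [ord_pow]; nlinarith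
      have hw0r : w0.ord (a ^ r) < 0 := by rw [ord_pow]; nlinarith
      have h1ne : 1 + a ^ r ≠ 0 := by
        apply ne_zero_of_ord_ne_zero v
        rw [ord_one_add_of_neg v hvr]; exact hvr.ne
      have hc : ∀ u : Place K F, u.ord (a ^ r * (1 + a ^ r)⁻¹ * b)
          = u.ord (a ^ r) - u.ord (1 + a ^ r) + u.ord b := by
        intro u
        rw [u.ord_mul (mul_ne_zero har0 (inv_ne_zero h1ne)) hb0,
          u.ord_mul har0 (inv_ne_zero h1ne), u.ord_inv]
        ring
      refine ⟨a ^ r * (1 + a ^ r)⁻¹ * b, ?_, ?_⟩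
      · rw [hc, ord_one_add_of_neg v hvr]; omega
      · intro w hw
        rcases Finset.mem_insert.mp hw with rfl | hw
        · rw [hc, ord_one_add_of_neg _ hw0r]; omega
        · have hwr : 0 < w.ord (a ^ r) := by
            rw [ord_pow]; have := haW w hw; nlinarith
          rw [hc, ord_one_add_of_pos w hwr, ord_pow]
          have := hrW w hw
          omega
    · refine ⟨a ^ r * b, ?_, ?_⟩
      · rw [v.ord_mul har0 hb0, ord_pow]; nlinarith
      · intro w hw
        rcases Finset.mem_insert.mp hw with rfl | hw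
        · rw [Place.ord_mul _ har0 hb0, ord_pow, heq]; omega
        · rw [w.ord_mul har0 hb0, ord_pow]; exact hrW w hw
    · refine ⟨a, ha, ?_⟩
      intro w hw
      rcases Finset.mem_insert.mp hw with rfl | hw
      · exact hgt
      · exact haW w hw

/-- The form used by the counting lemma. -/
theorem exists_ord_neg_and_eq_zero (v : Place K F) (W : Finset (Place K F)) (hv : v ∉ W) :
    ∃ g : F, v.ord g < 0 ∧ ∀ w ∈ W, w.ord g = 0 := by
  obtain ⟨a, ha, haW⟩ := exists_ord_neg_and_pos v W hv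
  exact ⟨1 + a, by rw [ord_one_add_of_neg v ha]; exact ha,
    fun w hw => ord_one_add_of_pos w (haW w hw)⟩

end Fermat.Agent.S24.Local
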